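/-
S37lib / ES / Pic0  (helper6)

**(C2.4), formal step.**  If the Eichler–Shimura defect `g_* r_* T_ℓ - (g_*² + ℓ) r_*` vanishes on all
divisors of `FBar N` (output of `Glue.rigidity`), then the Eichler–Shimura relation holds on
`Pic⁰`, in the shape of `Glue.Inputs.exists_frob`, clause 3:

  `Fr (reductionModL A N (heckeOperatorBar N ⟨ℓ, hℓ⟩ w)) = Fr (Fr (reductionModL A N w)) + ℓ • reductionModL A N w`

with `Fr := frobHom g`, the action of `g` on `JZeroC k N`.
-/
import Mathlib
import Fermat.Agent.S37lib.ES.Principal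
import Fermat.Agent.S37lib.HeckeInst.Final
import Fermat.Prelude.Def_ModularCurve_HeckeModule
import Fermat.Prelude.Def_ModularCurve_ReductionModL
import Fermat.Agent.S18lib.Setup.Modular

set_option autoImplicit false
set_option linter.unusedSectionVars false
set_option linter.style.haveILetI false

noncomputable section

namespace Fermat.Agent.S37lib.ES

open AlgebraicCurve ModularCurve Fermat.Agent.S18lib

local notation "Qb" => AlgebraicClosure ℚ

variable (N : ℕ) [NeZero N] (A : ValuationSubring Qb)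

/-- the additive endomorphism of `JZeroC k N` induced by a semilinear automorphism. -/
def frobHom (g : SemilinearAut (kRes A) (FRes A N)) :
    JZeroC (IsLocalRing.ResidueField A) N →+ JZeroC (IsLocalRing.ResidueField A) N :=
  DistribSMul.toAddMonoidHom (JZeroC (IsLocalRing.ResidueField A) N) g

theorem frobHom_apply (g : SemilinearAut (kRes A) (FRes A N))
    (x : JZeroC (IsLocalRing.ResidueField A) N) : frobHom N A g x = g • x := rfl

variable {ℓ : ℕ} [NeZero ℓ]

/-- the Hecke operator of the Prelude on a class, as the class of `T_ℓ D`. -/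
theorem heckeOperatorBar_mk (hℓ : ℓ.Prime)
    (E : Divisor.degZero (K := Qb) (F := modularFunctionFieldBar N)) :
    haveI := HeckeInst.hasPrincipalDivisors_FB (N * ℓ)
    heckeOperatorBar N ⟨ℓ, hℓ⟩ (Pic0.mk E) =
      Pic0.mk (Pic0.degZeroCorrespondence (heckeBetaBar Qb N ℓ) (heckeAlphaBar Qb N ℓ)
        (HeckeInst.heckeBetaBarIntegral N ℓ) (HeckeInst.heckeAlphaBarIntegral N ℓ)
        (HeckeInst.fundamentalIdentityAlong_beta N ℓ) E) := by
  haveI := HeckeInst.hasPrincipalDivisors_FB (N * ℓ)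
  show heckeOperatorAlong Qb N ℓ (Pic0.mk E) = _
  rw [heckeOperatorAlong_eq (HeckeInst.heckeAlphaBarIntegral N ℓ)
    (HeckeInst.heckeBetaBarIntegral N ℓ) (HeckeInst.fundamentalIdentityAlong_beta N ℓ)
    (HeckeInst.finiteAlong_alpha N ℓ) (HeckeInst.normFormulaAlong_alpha N ℓ)]
  rfl

/-- **(C2.4)** Eichler–Shimura on `Pic⁰` from the vanishing of the defect on divisors. -/
theorem es_pic0_of_esDefect_eq_zero (hℓ : ℓ.Prime) (h : ReductionInputsModL A N)
    (D : RedDatum A (FBar N) (FRes A N)) (hDr : D.r = placeReductionModL h)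
    (g : SemilinearAut (kRes A) (FRes A N))
    (hzero : haveI := HeckeInst.hasPrincipalDivisors_FB (N * ℓ)
      esDefect D (heckeBetaBar Qb N ℓ) (heckeAlphaBar Qb N ℓ) (HeckeInst.heckeBetaBarIntegral N ℓ)
        (HeckeInst.heckeAlphaBarIntegral N ℓ) g ℓ = 0)
    (w : JZero N) :
    frobHom N A g (reductionModL A N (heckeOperatorBar N ⟨ℓ, hℓ⟩ w)) =
      frobHom N A g (frobHom N A g (reductionModL A N w)) + ℓ • reductionModL A N w := by
  haveI := HeckeInst.hasPrincipalDivisors_FB (N * ℓ)
  obtain ⟨E, rfl⟩ := Pic0.mk_surjective w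
  -- (no `rw` with `reductionModL_mk`: `kabstract` on this goal is very slow)
  have h0 := heckeOperatorBar_mk N hℓ E
  have h1 := reductionModL_mk h E
  have h2 := reductionModL_mk h (Pic0.degZeroCorrespondence (heckeBetaBar Qb N ℓ)
    (heckeAlphaBar Qb N ℓ) (HeckeInst.heckeBetaBarIntegral N ℓ) (HeckeInst.heckeAlphaBarIntegral N ℓ)
    (HeckeInst.fundamentalIdentityAlong_beta N ℓ) E)
  refine (congrArg (fun x => frobHom N A g (reductionModL A N x)) h0).trans ?_
  refine (congrArg (frobHom N A g) h2).trans ?_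
  refine Eq.trans ?_ (congrArg (fun x => frobHom N A g (frobHom N A g x) + ℓ • x) h1).symm
  have hE := (esDefect_eq_zero_iff D (heckeBetaBar Qb N ℓ) (heckeAlphaBar Qb N ℓ)
    (HeckeInst.heckeBetaBarIntegral N ℓ) (HeckeInst.heckeAlphaBarIntegral N ℓ) g ℓ
    (E : Divisor Qb (FBar N))).mp (by rw [hzero]; rfl)
  rw [hDr] at hE
  show Pic0.mk _ = Pic0.mk _ + ℓ • Pic0.mk _
  rw [show ∀ Z : Divisor.degZero (K := kRes A) (F := FRes A N),
      ℓ • Pic0.mk Z = Pic0.mk (ℓ • Z) from fun Z => rfl, ← Pic0.mk_add]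
  refine congrArg Pic0.mk (Subtype.ext ?_)
  exact hE

end Fermat.Agent.S37lib.ES
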