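/-
S37lib / ES / CorrDiv  (helper6)

Divisor-level description of the Prelude's `Divisor.correspondence φ ψ hφ hψ = ψ_* ∘ φ^*`
(`φ, ψ : F →ₐ[K] F'` integral; `φ` is pulled back, `ψ` is pushed forward):

* `correspondence_single` : the image of a single place,
* `exists_of_mem_support_correspondence` : support control,
* `correspondence_nonneg` : effective divisors go to effective divisors,
* `correspondence_apply_eq_ord` : `T (div f) = div (N_ψ (φ f))` under the norm formula along `ψ`.

For the Hecke correspondence `T_ℓ = heckeDivBar = correspondence (heckeBetaBar) (heckeAlphaBar)`.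
-/
import Mathlib
import Fermat.Prelude.Def_AlgebraicCurve_Correspondence

set_option autoImplicit false
set_option linter.unusedSectionVars false
set_option linter.style.haveILetI false

noncomputable section

namespace Fermat.Agent.S37lib.ES

open AlgebraicCurve

variable {K F F' : Type*} [Field K] [Field F] [Field F'] [Algebra K F] [Algebra K F']

/-- the norm of `h : F'` down to `F` along the algebra hom `ψ`. -/
def normAlong (ψ : F →ₐ[K] F') (h : F') : F :=
  letI := algebraAlong ψ
  Algebra.norm F h

theorem normAlong_def (ψ : F →ₐ[K] F') (h : F') :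
    normAlong ψ h = (letI := algebraAlong ψ; Algebra.norm F h) := rfl

theorem normAlong_ne_zero (ψ : F →ₐ[K] F') (hfin : FiniteAlong K ψ) {h : F'} (hh : h ≠ 0) :
    normAlong ψ h ≠ 0 := by
  letI := algebraAlong ψ
  haveI : Module.Finite F F' := hfin
  exact Algebra.norm_ne_zero_iff.mpr hh

theorem normAlong_mul (ψ : F →ₐ[K] F') (a b : F') :
    normAlong ψ (a * b) = normAlong ψ a * normAlong ψ b := by
  letI := algebraAlong ψ
  exact map_mul (Algebra.norm F) a b

theorem normAlong_one (ψ : F →ₐ[K] F') : normAlong ψ (1 : F') = 1 := by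
  letI := algebraAlong ψ
  exact map_one (Algebra.norm F)

section Pull

variable [HasPrincipalDivisors K F'] (φ : F →ₐ[K] F') (hφ : φ.toRingHom.IsIntegral)

/-- `φ^* (div f) = div (φ f)`. -/
theorem pullbackAlong_apply_eq_ord {f : F} {D : Divisor K F} (hD : ∀ v : Place K F, D v = v.ord f)
    (w : Place K F') : Divisor.pullbackAlong φ hφ D w = w.ord (φ f) := by
  rw [Divisor.pullbackAlong_apply, hD, ← Place.ord_restrictAlong]

theorem pullbackAlong_nonneg {D : Divisor K F} (hD : ∀ v, 0 ≤ D v) (w : Place K F') :
    0 ≤ Divisor.pullbackAlong φ hφ D w := by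
  rw [Divisor.pullbackAlong_apply]
  exact mul_nonneg (Int.natCast_nonneg _) (hD _)

theorem restrictAlong_mem_support_of_mem_support_pullbackAlong {D : Divisor K F} {w : Place K F'}
    (hw : w ∈ (Divisor.pullbackAlong φ hφ D).support) : w.restrictAlong φ hφ ∈ D.support := by
  rw [Finsupp.mem_support_iff] at hw ⊢
  intro h
  exact hw (by rw [Divisor.pullbackAlong_apply, h, mul_zero])

end Pull

section Push

variable (ψ : F →ₐ[K] F') (hψ : ψ.toRingHom.IsIntegral)

/-- `ψ_* (div h) = div (N_ψ h)` under the norm formula. -/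
theorem pushforwardAlong_apply_eq_ord (hfin : FiniteAlong K ψ) (hN : NormFormulaAlong K ψ hfin)
    {h : F'} (hh : h ≠ 0) {D : Divisor K F'} (hD : ∀ w : Place K F', D w = w.ord h)
    (v : Place K F) : Divisor.pushforwardAlong ψ hψ D v = v.ord (normAlong ψ h) := by
  letI := algebraAlong ψ
  haveI := isScalarTower_along ψ
  haveI := isIntegral_along ψ hψ
  haveI : Module.Finite F F' := hfin
  exact hN h hh D hD v

theorem pushforwardAlong_apply [DecidableEq (Place K F)] (D : Divisor K F') (v : Place K F) :
    Divisor.pushforwardAlong ψ hψ D v =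
      ∑ w ∈ D.support,
        if w.restrictAlong ψ hψ = v then D w * (w.inertiaDegAlong ψ hψ : ℤ) else 0 := by
  letI := algebraAlong ψ
  haveI := isScalarTower_along ψ
  haveI := isIntegral_along ψ hψ
  exact Divisor.pushforward_apply D v

theorem pushforwardAlong_nonneg {D : Divisor K F'} (hD : ∀ w, 0 ≤ D w) (v : Place K F) :
    0 ≤ Divisor.pushforwardAlong ψ hψ D v := by
  classical
  rw [pushforwardAlong_apply]
  refine Finset.sum_nonneg fun w _ => ?_
  split_ifs
  · exact mul_nonneg (hD w) (Int.natCast_nonneg _)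
  · exact le_rfl

theorem exists_of_mem_support_pushforwardAlong {D : Divisor K F'} {v : Place K F}
    (hv : v ∈ (Divisor.pushforwardAlong ψ hψ D).support) :
    ∃ w ∈ D.support, w.restrictAlong ψ hψ = v := by
  classical
  rw [Finsupp.mem_support_iff, pushforwardAlong_apply] at hv
  obtain ⟨w, hw, hne⟩ := Finset.exists_ne_zero_of_sum_ne_zero hv
  refine ⟨w, hw, ?_⟩
  by_contra h
  exact hne (if_neg h)

end Push

section Corr

variable [HasPrincipalDivisors K F'] (φ ψ : F →ₐ[K] F') (hφ : φ.toRingHom.IsIntegral)
  (hψ : ψ.toRingHom.IsIntegral)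

/-- **`T (div f) = div (N_ψ (φ f))`.** -/
theorem correspondence_apply_eq_ord (hfin : FiniteAlong K ψ) (hN : NormFormulaAlong K ψ hfin)
    {f : F} (hf : f ≠ 0) {D : Divisor K F} (hD : ∀ v : Place K F, D v = v.ord f)
    (v : Place K F) :
    Divisor.correspondence φ ψ hφ hψ D v = v.ord (normAlong ψ (φ f)) := by
  rw [Divisor.correspondence_apply]
  exact pushforwardAlong_apply_eq_ord ψ hψ hfin hN ((map_ne_zero φ).mpr hf)
    (fun w => pullbackAlong_apply_eq_ord φ hφ hD w) v

/-- the image of a single place under the correspondence. -/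
theorem correspondence_single (P : Place K F) (n : ℤ) :
    Divisor.correspondence φ ψ hφ hψ (Finsupp.single P n) =
      ∑ W ∈ Place.fiberAlong φ hφ P,
        Finsupp.single (W.restrictAlong ψ hψ)
          (n * W.ramificationIndexAlong φ * W.inertiaDegAlong ψ hψ) := by
  rw [Divisor.correspondence_apply, Divisor.pullbackAlong_single, map_sum]
  refine Finset.sum_congr rfl fun W _ => ?_
  rw [Divisor.pushforwardAlong_single]

/-- effective divisors go to effective divisors. -/
theorem correspondence_nonneg {D : Divisor K F} (hD : ∀ v, 0 ≤ D v) (v : Place K F) :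
    0 ≤ Divisor.correspondence φ ψ hφ hψ D v := by
  rw [Divisor.correspondence_apply]
  exact pushforwardAlong_nonneg ψ hψ (fun w => pullbackAlong_nonneg φ hφ hD w) v

/-- support control: every place of `T D` is `W|_ψ` for some `W` with `W|_φ ∈ supp D`. -/
theorem exists_of_mem_support_correspondence {D : Divisor K F} {Q : Place K F}
    (hQ : Q ∈ (Divisor.correspondence φ ψ hφ hψ D).support) :
    ∃ W : Place K F', W.restrictAlong φ hφ ∈ D.support ∧ W.restrictAlong ψ hψ = Q := by
  rw [Divisor.correspondence_apply] at hQ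
  obtain ⟨W, hW, hWQ⟩ := exists_of_mem_support_pushforwardAlong ψ hψ hQ
  exact ⟨W, restrictAlong_mem_support_of_mem_support_pullbackAlong φ hφ hW, hWQ⟩

theorem exists_of_mem_support_correspondence_single {P Q : Place K F} {n : ℤ}
    (hQ : Q ∈ (Divisor.correspondence φ ψ hφ hψ (Finsupp.single P n)).support) :
    ∃ W : Place K F', W.restrictAlong φ hφ = P ∧ W.restrictAlong ψ hψ = Q := by
  obtain ⟨W, hW, hWQ⟩ := exists_of_mem_support_correspondence φ ψ hφ hψ hQ
  refine ⟨W, ?_, hWQ⟩
  have := Finsupp.support_single_subset hW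
  exact Finset.mem_singleton.mp this

/-- conversely, when the inertia degrees along `ψ` are positive (e.g. all degrees one), every
`W|_ψ` with `W|_φ = P` occurs in `T P`. -/
theorem mem_support_correspondence_single {P : Place K F} {n : ℤ} (hn : 0 < n) (W : Place K F')
    (hW : W.restrictAlong φ hφ = P) (hinert : ∀ W' : Place K F', 0 < W'.inertiaDegAlong ψ hψ)
    (hram : ∀ W' : Place K F', 0 < W'.ramificationIndexAlong φ) :
    W.restrictAlong ψ hψ ∈ (Divisor.correspondence φ ψ hφ hψ (Finsupp.single P n)).support := by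
  classical
  rw [Finsupp.mem_support_iff, correspondence_single, Finsupp.finsetSum_apply]
  have hpos : ∀ W' : Place K F',
      0 < n * (W'.ramificationIndexAlong φ : ℤ) * (W'.inertiaDegAlong ψ hψ : ℤ) := fun W' =>
    mul_pos (mul_pos hn (by exact_mod_cast hram W')) (by exact_mod_cast hinert W')
  have hnn : ∀ W' ∈ Place.fiberAlong φ hφ P,
      0 ≤ (Finsupp.single (W'.restrictAlong ψ hψ)
        (n * (W'.ramificationIndexAlong φ : ℤ) * (W'.inertiaDegAlong ψ hψ : ℤ)))
          (W.restrictAlong ψ hψ) := by
    intro W' _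
    rw [Finsupp.single_apply]
    split_ifs
    · exact (hpos W').le
    · exact le_rfl
  have hmem : W ∈ Place.fiberAlong φ hφ P := Place.mem_fiberAlong.mpr hW
  have hle := Finset.single_le_sum hnn hmem
  rw [Finsupp.single_eq_same] at hle
  exact (lt_of_lt_of_le (hpos W) hle).ne'

end Corr

end Fermat.Agent.S37lib.ES
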