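/-
S37lib / ES / Principal  (helper6)

**Abstract (C2.1)**: the Eichler–Shimura defect
`Φ := g_* ∘ r_* ∘ T - (g_*² + ℓ) ∘ r_*  :  Div F →+ Div Fk`
(`T = ψ_* ∘ φ^*` a correspondence on `F`, `r` the place reduction of a `RedDatum`, `g` a semilinear
automorphism of the residue function field, in the application the coefficientwise Frobenius)
vanishes on principal divisors, provided the *norm congruence*
`g • red (N_ψ (φ a)) = (red a)^ℓ * g • g • red a` holds on a set `S` of elements with nonzero reduction
which generates `F^×` up to constants (`c * f * b = a`).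
-/
import Mathlib
import Fermat.Agent.S37lib.ES.CorrDiv
import Fermat.Agent.S18lib.Setup.DatumDiv

set_option autoImplicit false
set_option linter.unusedSectionVars false
set_option linter.style.haveILetI false

noncomputable section

namespace Fermat.Agent.S37lib.ES

open AlgebraicCurve Fermat.Agent.S18lib

section SemilinearDiv

variable {K F : Type*} [Field K] [Field F] [Algebra K F] [HasPrincipalDivisors K F]

/-- `g_* (div x) = div (g x)`. -/
theorem smul_divOf (g : SemilinearAut K F) (x : F) :
    g • divOf (K := K) x = divOf (K := K) (g • x) := by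
  ext w
  rw [SemilinearAut.divisor_smul_apply, divOf_apply', divOf_apply']
  have h := SemilinearAut.ord_smul g (g⁻¹ • w) x
  rw [smul_inv_smul] at h
  exact h.symm

/-- a divisor with the orders of `f` is `divOf f`. -/
theorem eq_divOf {f : F} {E : Divisor K F} (hE : ∀ P, E P = P.ord f) : E = divOf (K := K) f := by
  ext P
  rw [hE, divOf_apply']

end SemilinearDiv

section Defect

variable {L : Type*} [Field L] {A : ValuationSubring L}
variable {F : Type*} [Field F] [Algebra L F]
variable {Fk : Type*} [Field Fk] [Algebra (IsLocalRing.ResidueField A) Fk]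
variable (D : RedDatum A F Fk)
variable {F' : Type*} [Field F'] [Algebra L F'] [HasPrincipalDivisors L F']
variable (φ ψ : F →ₐ[L] F') (hφ : φ.toRingHom.IsIntegral) (hψ : ψ.toRingHom.IsIntegral)
variable (g : SemilinearAut (IsLocalRing.ResidueField A) Fk) (ℓ : ℕ)

local notation "k" => IsLocalRing.ResidueField A

/-- the action of `g` on divisors as an additive map. -/
def smulDivHom : Divisor k Fk →+ Divisor k Fk :=
  DistribSMul.toAddMonoidHom (Divisor k Fk) g

@[simp] theorem smulDivHom_apply (E : Divisor k Fk) : smulDivHom g E = g • E := rfl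

/-- **the Eichler–Shimura defect** `g_* r_* T - (g_*² + ℓ) r_*`. -/
def esDefect : Divisor L F →+ Divisor k Fk :=
  ((smulDivHom g).comp ((Finsupp.mapDomain.addMonoidHom D.r).comp
      (Divisor.correspondence φ ψ hφ hψ))) -
    (((smulDivHom g).comp (smulDivHom g) + ℓ • AddMonoidHom.id (Divisor k Fk)).comp
      (Finsupp.mapDomain.addMonoidHom D.r))

theorem esDefect_apply (E : Divisor L F) :
    esDefect D φ ψ hφ hψ g ℓ E =
      g • Finsupp.mapDomain D.r (Divisor.correspondence φ ψ hφ hψ E) -
        (g • g • Finsupp.mapDomain D.r E + ℓ • Finsupp.mapDomain D.r E) := rfl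

theorem esDefect_eq_zero_iff (E : Divisor L F) :
    esDefect D φ ψ hφ hψ g ℓ E = 0 ↔
      g • Finsupp.mapDomain D.r (Divisor.correspondence φ ψ hφ hψ E) =
        g • g • Finsupp.mapDomain D.r E + ℓ • Finsupp.mapDomain D.r E := by
  rw [esDefect_apply, sub_eq_zero]

variable [HasPrincipalDivisors L F] [HasPrincipalDivisors (IsLocalRing.ResidueField A) Fk]

/-- `T (div f) = div (N_ψ (φ f))`, `divOf` form. -/
theorem correspondence_divOf (hfin : FiniteAlong L ψ) (hN : NormFormulaAlong L ψ hfin)
    {f : F} (hf : f ≠ 0) :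
    Divisor.correspondence φ ψ hφ hψ (divOf (K := L) f) = divOf (K := L) (normAlong ψ (φ f)) := by
  ext v
  rw [correspondence_apply_eq_ord φ ψ hφ hψ hfin hN hf (fun P => divOf_apply hf P) v, divOf_apply']

/-- the defect vanishes on `div a` as soon as the norm congruence holds for `a`. -/
theorem esDefect_divOf (hfin : FiniteAlong L ψ) (hN : NormFormulaAlong L ψ hfin) {a : F}
    (ha : D.redF a ≠ 0)
    (hcong : g • D.redF (normAlong ψ (φ a)) = D.redF a ^ ℓ * g • g • D.redF a) :
    esDefect D φ ψ hφ hψ g ℓ (divOf (K := L) a) = 0 := by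
  have ha0 : a ≠ 0 := by
    rintro rfl
    exact ha D.redF_zero
  have hgg : g • g • D.redF a ≠ 0 := by
    rw [Ne, smul_eq_zero_iff_eq, smul_eq_zero_iff_eq]
    exact ha
  have hpow : D.redF a ^ ℓ ≠ 0 := pow_ne_zero ℓ ha
  have hN0 : D.redF (normAlong ψ (φ a)) ≠ 0 := by
    intro h0
    rw [h0, smul_zero] at hcong
    exact mul_ne_zero hpow hgg hcong.symm
  rw [esDefect_eq_zero_iff, correspondence_divOf φ ψ hφ hψ hfin hN ha0, D.mapDomain_divOf hN0,
    D.mapDomain_divOf ha, smul_divOf, smul_divOf, smul_divOf, hcong, divOf_mul hpow hgg,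
    divOf_pow, add_comm]

/-- **(C2.1), abstract form.**  The defect vanishes on all principal divisors. -/
theorem esDefect_principal (hfin : FiniteAlong L ψ) (hN : NormFormulaAlong L ψ hfin)
    (S : Set F)
    (hgen : ∀ f : F, f ≠ 0 → ∃ c : L, c ≠ 0 ∧ ∃ a ∈ S, ∃ b ∈ S, algebraMap L F c * f * b = a)
    (hS : ∀ a ∈ S, D.redF a ≠ 0)
    (hcong : ∀ a ∈ S, g • D.redF (normAlong ψ (φ a)) = D.redF a ^ ℓ * g • g • D.redF a)
    (f : F) (hf : f ≠ 0) (Df : Divisor L F) (hDf : ∀ P, Df P = P.ord f) :
    esDefect D φ ψ hφ hψ g ℓ Df = 0 := by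
  obtain ⟨c, hc, a, haS, b, hbS, habc⟩ := hgen f hf
  have hb0 : b ≠ 0 := by
    rintro rfl
    exact hS _ hbS D.redF_zero
  have hcf : algebraMap L F c * f ≠ 0 := mul_ne_zero ((map_ne_zero _).2 hc) hf
  have hdiv : Df = divOf (K := L) a - divOf (K := L) b := by
    rw [eq_divOf hDf, ← habc, divOf_mul hcf hb0, divOf_algebraMap_mul hc, add_sub_cancel_right]
  rw [hdiv, map_sub, esDefect_divOf D φ ψ hφ hψ g ℓ hfin hN (hS a haS) (hcong a haS),
    esDefect_divOf D φ ψ hφ hψ g ℓ hfin hN (hS b hbS) (hcong b hbS), sub_zero]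

end Defect

end Fermat.Agent.S37lib.ES
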