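/-
S37lib / ES / PrincipalInst  (helper6)

**(C2.1), modular instance.**  For the Hecke correspondence `T_ℓ = α_* β^*` on `FBar N`, any
`RedDatum` `D` extending the Gauss datum of level `N` (`ℓ ∤ N`) and any semilinear automorphism `g`
of `FRes A N` acting on `q`-expansions as the coefficientwise Frobenius, the Eichler–Shimura defect
`g_* r_* T_ℓ - (g_*² + ℓ) r_*` vanishes on principal divisors.

Inputs: helper4's `ConjNorm.exists_norm_reduction'` (C1), helper1's `HeckeInst` (A-instance),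
helper7's `V.exists_decomp_U` (PGI), `Tower.pushforwardNormFormula` (A-generic).
-/
import Mathlib
import Fermat.Agent.S37lib.ES.Principal
import Fermat.Agent.S37lib.ConjNorm.Reduce
import Fermat.Agent.S37lib.HeckeInst.Final
import Fermat.Agent.S18lib.V.GaussU.Datum

set_option autoImplicit false
set_option linter.unusedSectionVars false
set_option linter.style.haveILetI false

noncomputable section

namespace Fermat.Agent.S37lib.ES

open AlgebraicCurve ModularCurve Fermat.Agent.S18lib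

local notation "Qb" => AlgebraicClosure ℚ

variable (N : ℕ) [NeZero N] (A : ValuationSubring Qb) {ℓ : ℕ} [Fact ℓ.Prime] [NeZero ℓ]
  [CharP (kRes A) ℓ]

/-- the set of integral modular functions with nonzero reduction. -/
def goodSet : Set (FBar N) := {x | ∃ a : V.IntRing N A, V.elemK a ≠ 0 ∧ V.elemL a = x}

/-- **(C2.1)** for the modular curve of level `N`. -/
theorem esDefect_principal_modular (hℓN : ¬ ℓ ∣ N) (hA : A.LiesOverPrime ℓ)
    [HasPrincipalDivisors Qb (FBar N)] [HasPrincipalDivisors (kRes A) (FRes A N)]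
    (D : RedDatum A (FBar N) (FRes A N)) (hD : D.toGaussDatum = V.gaussDatum N A hℓN hA)
    (g : SemilinearAut (kRes A) (FRes A N))
    (hg : ∀ x : FRes A N, ((g • x : FRes A N) : LaurentSeries (kRes A)) =
      coeffMap (frobenius (kRes A) ℓ) (x : LaurentSeries (kRes A)))
    (f : FBar N) (hf : f ≠ 0) (Df : Divisor Qb (FBar N)) (hDf : ∀ P, Df P = P.ord f) :
    haveI := HeckeInst.hasPrincipalDivisors_FB (N * ℓ)
    esDefect D (heckeBetaBar Qb N ℓ) (heckeAlphaBar Qb N ℓ) (HeckeInst.heckeBetaBarIntegral N ℓ)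
      (HeckeInst.heckeAlphaBarIntegral N ℓ) g ℓ Df = 0 := by
  haveI := HeckeInst.hasPrincipalDivisors_FB (N * ℓ)
  have hredF : ∀ x : FBar N, D.redF x = (V.gaussDatum N A hℓN hA).redF x := by
    intro x
    rw [← hD, RedDatum.toGaussDatum_redF]
  refine esDefect_principal D (heckeBetaBar Qb N ℓ) (heckeAlphaBar Qb N ℓ)
    (HeckeInst.heckeBetaBarIntegral N ℓ) (HeckeInst.heckeAlphaBarIntegral N ℓ) g ℓ
    (HeckeInst.finiteAlong_alpha N ℓ) (HeckeInst.normFormulaAlong_alpha N ℓ) (goodSet N A)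
    ?_ ?_ ?_ f hf Df hDf
  · -- generation
    intro f hf
    obtain ⟨c, a, b, hc, ha, hb, hfab⟩ := V.exists_decomp_U N ℓ A hℓN hA hf
    refine ⟨c⁻¹, inv_ne_zero hc, V.elemL a, ⟨a, ha, rfl⟩, V.elemL b, ⟨b, hb, rfl⟩, ?_⟩
    have hcF : algebraMap Qb (FBar N) c ≠ 0 := (map_ne_zero _).2 hc
    rw [mul_assoc, hfab, map_inv₀, inv_mul_cancel_left₀ hcF]
  · -- nonzero reduction
    rintro _ ⟨a, ha, rfl⟩
    rw [hredF, V.gaussDatum_redF_elemL]
    exact ha
  · -- the norm congruence
    rintro _ ⟨a, ha, rfl⟩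
    obtain ⟨b, hb1, hb2⟩ := ConjNorm.exists_norm_reduction' N A hA hℓN a
    have hN : normAlong (heckeAlphaBar Qb N ℓ) (heckeBetaBar Qb N ℓ (V.elemL a)) = V.elemL b :=
      hb1.symm
    rw [hN, hredF, hredF, V.gaussDatum_redF_elemL, V.gaussDatum_redF_elemL]
    apply Subtype.ext
    rw [hg, MulMemClass.coe_mul, SubmonoidClass.coe_pow, hg, hg]
    exact hb2

end Fermat.Agent.S37lib.ES
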