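/-
S37lib / ES / Socket  (helper6)

**Block (C) assembled, with (C2.2) as the only hypothesis.**
Given reduction inputs `h` at level `N` (`ℓ ∤ N`, `A` over `ℓ`), a semilinear automorphism `g` of
`FRes A N` acting on `q`-expansions as the coefficientwise Frobenius, and the *support control*
data `(B, hB, hdisj, hex)` of `Glue.rigidity` for the Eichler–Shimura defect, we get clause 3 of
`Glue.Inputs.exists_frob`:

  `Fr (reductionModL A N (heckeOperatorBar N ⟨ℓ, hℓ⟩ w)) = Fr (Fr (reductionModL A N w)) + ℓ • reductionModL A N w`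

with `Fr := frobHom N A g`.
-/
import Mathlib
import Fermat.Agent.S37lib.ES.PrincipalInst
import Fermat.Agent.S37lib.ES.Pic0
import Fermat.Agent.S37lib.Glue.Rigid
import Fermat.Agent.S37lib.B3.Unique

set_option autoImplicit false
set_option linter.unusedSectionVars false
set_option linter.style.haveILetI false

noncomputable section

namespace Fermat.Agent.S37lib.ES

open AlgebraicCurve ModularCurve Fermat.Agent.S18lib

local notation "Qb" => AlgebraicClosure ℚ

variable (N : ℕ) [NeZero N] (A : ValuationSubring Qb) {ℓ : ℕ} [Fact ℓ.Prime] [NeZero ℓ]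
  [CharP (kRes A) ℓ]

/-- the reduction datum of level `N` whose place map is the chosen `placeReductionModL h`. -/
abbrev theDatum (hℓN : ¬ ℓ ∣ N) (hA : A.LiesOverPrime ℓ) (h : ReductionInputsModL A N) :
    RedDatum A (FBar N) (FRes A N) :=
  B3.datumOf N A hℓN hA (placeReductionModL h) (isPlaceReductionModL_placeReductionModL h)

/-- the Eichler–Shimura defect of level `N` for the Hecke correspondence `T_ℓ`. -/
def heckeDefect (hℓN : ¬ ℓ ∣ N) (hA : A.LiesOverPrime ℓ) (h : ReductionInputsModL A N)
    (g : SemilinearAut (kRes A) (FRes A N)) :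
    Divisor Qb (FBar N) →+ Divisor (kRes A) (FRes A N) :=
  haveI := HeckeInst.hasPrincipalDivisors_FB (N * ℓ)
  esDefect (theDatum N A hℓN hA h) (heckeBetaBar Qb N ℓ) (heckeAlphaBar Qb N ℓ)
    (HeckeInst.heckeBetaBarIntegral N ℓ) (HeckeInst.heckeAlphaBarIntegral N ℓ) g ℓ

/-- **(C) modulo (C2.2).** -/
theorem es_pic0_of_support (hℓ : ℓ.Prime) (hℓN : ¬ ℓ ∣ N) (hA : A.LiesOverPrime ℓ)
    (h : ReductionInputsModL A N)
    (g : SemilinearAut (kRes A) (FRes A N))
    (hg : ∀ x : FRes A N, ((g • x : FRes A N) : LaurentSeries (kRes A)) =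
      coeffMap (frobenius (kRes A) ℓ) (x : LaurentSeries (kRes A)))
    (B : Place (kRes A) (FRes A N) → Finset (Place (kRes A) (FRes A N)))
    (hB : ∀ Q, Q ∈ B Q)
    (hdisj : ∀ P P' : Place Qb (FBar N),
      placeReductionModL h P' ∉ B (placeReductionModL h P) →
        Disjoint (heckeDefect N A hℓN hA h g (Finsupp.single P' 1)).support
          (heckeDefect N A hℓN hA h g (Finsupp.single P 1)).support)
    (hex : ∀ Q : Place (kRes A) (FRes A N), ∃ P₀ : Place Qb (FBar N),
      placeReductionModL h P₀ ∉ B Q)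
    (w : JZero N) :
    frobHom N A g (reductionModL A N (heckeOperatorBar N ⟨ℓ, hℓ⟩ w)) =
      frobHom N A g (frobHom N A g (reductionModL A N w)) + ℓ • reductionModL A N w := by
  obtain ⟨γ, hF, hFk⟩ := B3.exists_genus_level N A hℓN hA h
  haveI := hF.hasPrincipalDivisors
  haveI := hFk.hasPrincipalDivisors
  haveI : Infinite (IsLocalRing.ResidueField A) :=
    IsAlgClosed.instInfinite (K := kRes A)
  have hzero : heckeDefect N A hℓN hA h g = 0 := by
    refine Glue.rigidity (theDatum N A hℓN hA h)
      (B3.datumOf_hasOrthonormalBases N A hℓN hA _ _) hF hFk (heckeDefect N A hℓN hA h g)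
      ?_ B hB hdisj hex
    intro f hf Df hDf
    exact esDefect_principal_modular N A hℓN hA (theDatum N A hℓN hA h) rfl g hg f hf Df hDf
  exact es_pic0_of_esDefect_eq_zero N A hℓ h (theDatum N A hℓN hA h) rfl g hzero w

end Fermat.Agent.S37lib.ES
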