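/-
S37lib / ES / Final  (helper6)

Clause 3 of `Glue.Inputs.exists_frob` (Eichler–Shimura on `Pic⁰`) for helper7's `C0.Fr A N hA`,
from reduction inputs `h` and the support control data of (C2.2) for the Eichler–Shimura defect
`heckeDefect N A hℓN hA h (C0.frobAut A N ℓ)`.
-/
import Mathlib
import Fermat.Agent.S37lib.ES.Socket
import Fermat.Agent.S37lib.C0.Wire

set_option autoImplicit false
set_option linter.unusedSectionVars false
set_option linter.style.haveILetI false

noncomputable section

namespace Fermat.Agent.S37lib.ES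

open AlgebraicCurve ModularCurve Fermat.Agent.S18lib

local notation "Qb" => AlgebraicClosure ℚ

variable (N : ℕ) [NeZero N] (A : ValuationSubring Qb) {ℓ : ℕ} [Fact ℓ.Prime]

/-- the coefficientwise Frobenius of `FRes A N` (helper7's `C0.frobAut` with its instances). -/
def frobK (hA : A.LiesOverPrime ℓ) : SemilinearAut (kRes A) (FRes A N) :=
  haveI := C0.expChar_kRes hA
  haveI := C0.perfectRing_kRes hA
  C0.frobAut A N ℓ

theorem Fr_eq_frobHom (hA : A.LiesOverPrime ℓ) : C0.Fr A N hA = frobHom N A (frobK N A hA) := rfl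

/-- the Eichler–Shimura defect for the coefficientwise Frobenius. -/
def frobDefect (hℓN : ¬ ℓ ∣ N) (hA : A.LiesOverPrime ℓ) (h : ReductionInputsModL A N) :
    Divisor Qb (FBar N) →+ Divisor (kRes A) (FRes A N) :=
  haveI : NeZero ℓ := ⟨(Fact.out : ℓ.Prime).ne_zero⟩
  haveI := Gink.charP_kRes A hA
  heckeDefect N A hℓN hA h (frobK N A hA)

/-- **Eichler–Shimura on `Pic⁰`, modulo the support control (C2.2).** -/
theorem hES_of_support (hℓ : ℓ.Prime) (hℓN : ¬ ℓ ∣ N) (hA : A.LiesOverPrime ℓ)
    (h : ReductionInputsModL A N)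
    (B : Place (kRes A) (FRes A N) → Finset (Place (kRes A) (FRes A N)))
    (hB : ∀ Q, Q ∈ B Q)
    (hdisj : ∀ P P' : Place Qb (FBar N),
      placeReductionModL h P' ∉ B (placeReductionModL h P) →
        Disjoint (frobDefect N A hℓN hA h (Finsupp.single P' 1)).support
          (frobDefect N A hℓN hA h (Finsupp.single P 1)).support)
    (hex : ∀ Q : Place (kRes A) (FRes A N), ∃ P₀ : Place Qb (FBar N),
      placeReductionModL h P₀ ∉ B Q)
    (w : JZero N) :
    C0.Fr A N hA (reductionModL A N (heckeOperatorBar N ⟨ℓ, hℓ⟩ w)) =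
      C0.Fr A N hA (C0.Fr A N hA (reductionModL A N w)) + ℓ • reductionModL A N w := by
  haveI : NeZero ℓ := ⟨hℓ.ne_zero⟩
  haveI := Gink.charP_kRes A hA
  haveI := C0.expChar_kRes hA
  haveI := C0.perfectRing_kRes hA
  rw [Fr_eq_frobHom]
  exact es_pic0_of_support N A hℓ hℓN hA h (frobK N A hA)
    (fun x => C0.coe_frobAut_smul A N ℓ x) B hB hdisj hex w

end Fermat.Agent.S37lib.ES
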