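/-
S37lib / ES / JVal  (helper6)

The value of a function at a place (`none` at the poles), its behaviour under semilinear
automorphisms fixing the function, and finiteness of its fibres.
-/
import Mathlib
import Fermat.Prelude.Def_AlgebraicCurve_BaseChangeGalois
import Fermat.Agent.S18lib.Setup.DatumFibre
import Fermat.Agent.S18lib.Cech.CurveBasics
import Fermat.Agent.S37lib.B3.Descent

set_option autoImplicit false
set_option linter.unusedSectionVars false
set_option linter.style.haveILetI false

noncomputable section

namespace Fermat.Agent.S37lib.ES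

open AlgebraicCurve Fermat.Agent.S18lib

section Generic

variable {K F : Type*} [Field K] [Field F] [Algebra K F] (x : F)

open Classical in
/-- the value of `x` at the place `Q`; `none` if there is none (at the poles of `x`). -/
def valAt (Q : Place K F) : Option K :=
  if h : ∃ c : K, 0 < Q.ord (x - algebraMap K F c) then some h.choose else none

variable {x}

theorem eq_of_ord_sub_pos {Q : Place K F} {c c' : K} (h : 0 < Q.ord (x - algebraMap K F c))
    (h' : 0 < Q.ord (x - algebraMap K F c')) : c = c' := by
  by_contra hne
  have hcc : c' - c ≠ 0 := sub_ne_zero.mpr (Ne.symm hne)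
  have h1 : (x - algebraMap K F c) + -(x - algebraMap K F c') = algebraMap K F (c' - c) := by
    rw [map_sub]; ring
  have h2 := Cech.ord_add_ge Q (n := 1) (f := x - algebraMap K F c)
    (g := -(x - algebraMap K F c')) (Or.inr (by omega))
    (Or.inr (by rw [Cech.ord_neg]; omega))
  rw [h1] at h2
  rcases h2 with h2 | h2
  · exact hcc ((map_eq_zero_iff _ (algebraMap K F).injective).mp h2)
  · rw [Cech.ord_const] at h2
    omega

theorem valAt_eq_some_iff {Q : Place K F} {c : K} :
    valAt x Q = some c ↔ 0 < Q.ord (x - algebraMap K F c) := by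
  classical
  unfold valAt
  constructor
  · intro h
    split_ifs at h with hex
    · have := hex.choose_spec
      rw [Option.some.injEq] at h
      rwa [h] at this
  · intro h
    have hex : ∃ c : K, 0 < Q.ord (x - algebraMap K F c) := ⟨c, h⟩
    rw [dif_pos hex, Option.some.injEq]
    exact eq_of_ord_sub_pos hex.choose_spec h

theorem valAt_eq_none_iff' {Q : Place K F} :
    valAt x Q = none ↔ ∀ c : K, ¬ 0 < Q.ord (x - algebraMap K F c) := by
  classical
  unfold valAt
  constructor
  · intro h c hc
    rw [dif_pos ⟨c, hc⟩] at h
    exact Option.some_ne_none _ h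
  · intro h
    rw [dif_neg]
    rintro ⟨c, hc⟩
    exact h c hc

theorem valAt_eq_none_of_ord_neg {Q : Place K F} (h : Q.ord x < 0) : valAt x Q = none := by
  rw [valAt_eq_none_iff']
  intro c hc
  rw [ord_sub_algebraMap_of_neg Q h] at hc
  omega

theorem ord_neg_of_valAt_eq_none {Q : Place K F} (hdeg : Q.deg = 1)
    (hx : ∀ c : K, x ≠ algebraMap K F c) (h : valAt x Q = none) : Q.ord x < 0 := by
  rw [valAt_eq_none_iff'] at h
  by_contra hnn
  push Not at hnn
  obtain ⟨c, hc⟩ := B3.exists_value Q hdeg hnn
  rcases hc with hc | hc
  · exact hx c (sub_eq_zero.mp hc)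
  · exact h c hc

theorem valAt_eq_none_iff {Q : Place K F} (hdeg : Q.deg = 1)
    (hx : ∀ c : K, x ≠ algebraMap K F c) : valAt x Q = none ↔ Q.ord x < 0 :=
  ⟨ord_neg_of_valAt_eq_none hdeg hx, valAt_eq_none_of_ord_neg⟩

/-- equivariance under a semilinear automorphism fixing `x`. -/
theorem valAt_smul (g : SemilinearAut K F) (hg : g • x = x) (Q : Place K F) :
    valAt x (g • Q) = (valAt x Q).map (SemilinearAut.baseAut g) := by
  have key : ∀ (g : SemilinearAut K F), g • x = x → ∀ (Q : Place K F) (c : K),
      valAt x Q = some c → valAt x (g • Q) = some (SemilinearAut.baseAut g c) := by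
    intro g hg Q c hc
    rw [valAt_eq_some_iff] at hc ⊢
    have h1 := SemilinearAut.ord_smul g Q (x - algebraMap K F c)
    rw [smul_sub, hg, SemilinearAut.smul_algebraMap] at h1
    rw [h1]
    exact hc
  cases hv : valAt x Q with
  | some c => rw [key g hg Q c hv, Option.map_some]
  | none =>
    rw [Option.map_none]
    cases hv' : valAt x (g • Q) with
    | none => rfl
    | some c' =>
      exfalso
      have hg' : g⁻¹ • x = x := by
        rw [inv_smul_eq_iff, hg]
      have := key g⁻¹ hg' (g • Q) c' hv'
      rw [inv_smul_smul, hv] at this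
      exact Option.some_ne_none _ this.symm

section Fin

variable [HasPrincipalDivisors K F]

/-- the fibres of `valAt x` are finite (for nonconstant `x`). -/
theorem finite_valAt_fibre (hx : ∀ c : K, x ≠ algebraMap K F c)
    (hdeg : ∀ Q : Place K F, Q.deg = 1) (v : Option K) :
    {Q : Place K F | valAt x Q = v}.Finite := by
  cases v with
  | none =>
    have hx0 : x ≠ 0 := by
      intro h0
      exact hx 0 (by rw [h0, map_zero])
    refine (divOf (K := K) x).support.finite_toSet.subset ?_
    intro Q hQ
    have h1 : Q.ord x < 0 := ord_neg_of_valAt_eq_none (hdeg Q) hx hQ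
    rw [Finset.mem_coe, Finsupp.mem_support_iff, divOf_apply hx0]
    omega
  | some c =>
    have hx0 : x - algebraMap K F c ≠ 0 := sub_ne_zero.mpr (hx c)
    refine (divOf (K := K) (x - algebraMap K F c)).support.finite_toSet.subset ?_
    intro Q hQ
    have h1 : 0 < Q.ord (x - algebraMap K F c) := valAt_eq_some_iff.mp hQ
    rw [Finset.mem_coe, Finsupp.mem_support_iff, divOf_apply hx0]
    omega

end Fin

end Generic

end Fermat.Agent.S37lib.ES
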