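/-
S37lib / ES / SupportAid  (helper6)

Support of the Eichler–Shimura defect on a single place:
`supp Φ(P) ⊆ {r P, g • g • r P} ∪ {g • r (W|_ψ) : W|_φ = P}`.
-/
import Mathlib
import Fermat.Agent.S37lib.ES.Principal

set_option autoImplicit false
set_option linter.unusedSectionVars false
set_option linter.style.haveILetI false

noncomputable section

namespace Fermat.Agent.S37lib.ES

open AlgebraicCurve Fermat.Agent.S18lib

variable {L : Type*} [Field L] {A : ValuationSubring L}
variable {F : Type*} [Field F] [Algebra L F]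
variable {Fk : Type*} [Field Fk] [Algebra (IsLocalRing.ResidueField A) Fk]
variable (D : RedDatum A F Fk)
variable {F' : Type*} [Field F'] [Algebra L F'] [HasPrincipalDivisors L F']
variable (φ ψ : F →ₐ[L] F') (hφ : φ.toRingHom.IsIntegral) (hψ : ψ.toRingHom.IsIntegral)
variable (g : SemilinearAut (IsLocalRing.ResidueField A) Fk) (ℓ : ℕ)

/-- support of `g_* r_* T E`. -/
theorem exists_of_mem_support_smul_mapDomain_correspondence {E : Divisor L F}
    {Q : Place (IsLocalRing.ResidueField A) Fk}
    (hQ : Q ∈ (g • Finsupp.mapDomain D.r (Divisor.correspondence φ ψ hφ hψ E)).support) :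
    ∃ W : Place L F', W.restrictAlong φ hφ ∈ E.support ∧ Q = g • D.r (W.restrictAlong ψ hψ) := by
  classical
  rw [Finsupp.mem_support_iff, SemilinearAut.divisor_smul_apply, ← Finsupp.mem_support_iff] at hQ
  have h1 := Finsupp.mapDomain_support hQ
  obtain ⟨P'', hP'', hr⟩ := Finset.mem_image.mp h1
  obtain ⟨W, hW, hWP⟩ := exists_of_mem_support_correspondence φ ψ hφ hψ hP''
  refine ⟨W, hW, ?_⟩
  rw [hWP, hr, smul_inv_smul]

/-- **support of the defect on a single place.** -/
theorem mem_support_esDefect_single {P : Place L F} {Q : Place (IsLocalRing.ResidueField A) Fk}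
    (hQ : Q ∈ (esDefect D φ ψ hφ hψ g ℓ (Finsupp.single P 1)).support) :
    Q = D.r P ∨ Q = g • g • D.r P ∨
      ∃ W : Place L F', W.restrictAlong φ hφ = P ∧ Q = g • D.r (W.restrictAlong ψ hψ) := by
  classical
  by_contra hcon
  push Not at hcon
  obtain ⟨h1, h2, h3⟩ := hcon
  rw [Finsupp.mem_support_iff, esDefect_apply, Finsupp.mapDomain_single, SemilinearAut.smul_single,
    SemilinearAut.smul_single, Finsupp.sub_apply, Finsupp.add_apply, Finsupp.smul_apply,
    Finsupp.single_apply, Finsupp.single_apply, if_neg (Ne.symm h2), if_neg (Ne.symm h1),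
    smul_zero, add_zero, sub_zero, ← Finsupp.mem_support_iff] at hQ
  obtain ⟨W, hW, hWQ⟩ :=
    exists_of_mem_support_smul_mapDomain_correspondence D φ ψ hφ hψ g hQ
  have hWP : W.restrictAlong φ hφ = P := Finset.mem_singleton.mp (Finsupp.support_single_subset hW)
  exact h3 W hWP hWQ

end Fermat.Agent.S37lib.ES
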