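/-
S37lib / ES / SupportMod  (helper6)

**(C2.2), modular instance**: support control for the Eichler–Shimura defect `frobDefect`, i.e. the data
`B, hB, hdisj, hex` of `Glue.rigidity`, and hence the Eichler–Shimura relation on `Pic⁰`
(`ES.hES`), from reduction inputs `h` alone.

`jv Q : Option k` is the value of `j̄` at the place `Q` of `FRes A N` (`none` at the cusps).
* `jv (frobK • Q) = (jv Q).map (· ^ ℓ)`,
* `jv (r P)` is the reduction of the value of `j` at `P` (`none` if not integral),
* Kronecker (helper4): for a place `W` of level `N ℓ`, `P = W|_β`, `P'' = W|_α`: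
  `jv (r P'') = Fr (jv (r P)) ∨ Fr (jv (r P'')) = jv (r P)`.
-/
import Mathlib
import Fermat.Agent.S37lib.ES.Final
import Fermat.Agent.S37lib.ES.SupportAid
import Fermat.Agent.S37lib.ES.JVal
import Fermat.Agent.S37lib.ConjNorm.KroneckerPlace

set_option autoImplicit false
set_option linter.unusedSectionVars false
set_option linter.style.haveILetI false

noncomputable section

namespace Fermat.Agent.S37lib.ES

open AlgebraicCurve ModularCurve Fermat.Agent.S18lib

local notation "Qb" => AlgebraicClosure ℚ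

/-! ### orders along an algebra hom -/

section Along

variable {K F F' : Type*} [Field K] [Field F] [Field F'] [Algebra K F] [Algebra K F']
  (φ : F →ₐ[K] F')

theorem ramificationIndexAlong_pos (hφ : φ.toRingHom.IsIntegral) (W : Place K F') :
    0 < W.ramificationIndexAlong φ := by
  letI := algebraAlong φ
  haveI := isScalarTower_along φ
  haveI := isIntegral_along φ hφ
  exact W.ramificationIndex_pos (F := F)

theorem ord_map_pos_iff (hφ : φ.toRingHom.IsIntegral) (W : Place K F') (f : F) :
    0 < W.ord (φ f) ↔ 0 < (W.restrictAlong φ hφ).ord f := by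
  rw [Place.ord_restrictAlong φ hφ]
  have he : (0 : ℤ) < W.ramificationIndexAlong φ := by
    exact_mod_cast ramificationIndexAlong_pos φ hφ W
  constructor
  · intro h
    by_contra hn
    push Not at hn
    have := mul_nonpos_of_nonneg_of_nonpos he.le hn
    omega
  · intro h
    exact mul_pos he h

theorem ord_map_neg_iff (hφ : φ.toRingHom.IsIntegral) (W : Place K F') (f : F) :
    W.ord (φ f) < 0 ↔ (W.restrictAlong φ hφ).ord f < 0 := by
  rw [Place.ord_restrictAlong φ hφ]
  have he : (0 : ℤ) < W.ramificationIndexAlong φ := by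
    exact_mod_cast ramificationIndexAlong_pos φ hφ W
  constructor
  · intro h
    by_contra hn
    push Not at hn
    have := mul_nonneg he.le hn
    omega
  · intro h
    exact mul_neg_of_pos_of_neg he h

end Along


/-! ### (c3): a place where `y` takes a non-integral value reduces to a pole of `ȳ`
(helper3's `B3.ord_r_neg_of_not_mem`, restated here to avoid importing `B3.FibreCompat`, whose
`inv_mem_maximalIdeal_of_not_mem` clashes with the one of `B3.Descent`) -/

section C3

variable {L : Type*} [Field L] {A : ValuationSubring L}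
variable {F : Type*} [Field F] [Algebra L F]
variable {Fk : Type*} [Field Fk] [Algebra (IsLocalRing.ResidueField A) Fk]
variable (D : RedDatum A F Fk)
variable [HasPrincipalDivisors L F] [HasPrincipalDivisors (IsLocalRing.ResidueField A) Fk]

local notation "k" => IsLocalRing.ResidueField A

theorem ord_r_neg_of_not_mem' (hdegpos : ∀ Q : Place k Fk, 0 < Q.deg) {y : F}
    (hyO : y ∈ D.O) (hy : D.redF y ≠ 0)
    (hdeg : Divisor.degree (polesOf (K := L) y) = Divisor.degree (polesOf (K := k) (D.redF y)))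
    {a : L} (ha : a ∉ A) {P : Place L F} (hP : 0 < P.ord (y - algebraMap L F a)) :
    (D.r P).ord (D.redF y) < 0 := by
  obtain ⟨hbA, hbm⟩ := B3.inv_mem_maximalIdeal_of_not_mem ha
  set b : A := ⟨a⁻¹, hbA⟩ with hbdef
  have hb : (b : L) = a⁻¹ := rfl
  have ha0 : a ≠ 0 := by
    rintro rfl
    exact ha A.zero_mem
  have hb0 : (b : L) ≠ 0 := by rw [hb]; exact inv_ne_zero ha0
  set u : F := algebraMap L F (b : L) * y - 1 with hu
  have hu' : u = algebraMap L F (b : L) * (y - algebraMap L F a) := by
    rw [hu, mul_sub, ← map_mul, hb, inv_mul_cancel₀ ha0, map_one]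
  have hbyO : algebraMap L F (b : L) * y ∈ D.O := D.smul_mem b hyO
  have hredu : D.redF u = -1 := by
    rw [hu, D.redF_sub hbyO D.O.one_mem, D.redF_smul b hyO, D.redF_one,
      (IsLocalRing.residue_eq_zero_iff b).2 hbm, zero_smul, zero_sub]
  have hredu0 : D.redF u ≠ 0 := by rw [hredu]; exact neg_ne_zero.2 one_ne_zero
  have hdivu : divOf (K := L) u = divOf (K := L) (y - algebraMap L F a) := by
    rw [hu', divOf_algebraMap_mul hb0]
  have hdiv0 : divOf (K := k) (D.redF u) = 0 := by
    ext Q
    rw [divOf_apply', Finsupp.zero_apply, hredu]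
    have h1 : (-1 : Fk) = algebraMap k Fk (-1) := by rw [map_neg, map_one]
    rw [h1]
    exact ord_algebraMap_eq_zero Q (neg_ne_zero.2 one_ne_zero)
  have hmap := D.mapDomain_divOf hredu0
  rw [hdiv0, ← zerosOf_sub_polesOf, Finsupp.mapDomain_sub, sub_eq_zero] at hmap
  have hpoles : polesOf (K := L) u = polesOf (K := L) y := by
    have h1 : polesOf (K := L) u = polesOf (K := L) (y - algebraMap L F a) := by
      ext P'
      rw [polesOf_apply, polesOf_apply, ← divOf_apply', ← divOf_apply', hdivu]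
    rw [h1, polesOf_sub_algebraMap]
  rw [hpoles, D.mapDomain_polesOf hdegpos hy hdeg] at hmap
  have hPu : 0 < P.ord u := by
    rw [← divOf_apply', hdivu, divOf_apply']
    exact hP
  have h1 := le_mapDomain_apply D.r (zerosOf_nonneg (K := L) u) P
  rw [hmap, zerosOf_apply, polesOf_apply, max_eq_left hPu.le] at h1
  by_contra hle
  push Not at hle
  rw [max_eq_right (by linarith)] at h1
  linarith

end C3


/-! ### the value of `j̄` at the places of `FRes A N` -/

section Modular

variable (N : ℕ) [NeZero N] (A : ValuationSubring Qb) {ℓ : ℕ} [Fact ℓ.Prime]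

/-- the value of `j̄` at a place of `FRes A N` (`none` at the cusps). -/
abbrev jv (Q : Place (kRes A) (FRes A N)) : Option (kRes A) := valAt (Gink.jK A N) Q

/-- `c ↦ c ^ ℓ` on values. -/
abbrev frV (ℓ : ℕ) (v : Option (kRes A)) : Option (kRes A) := v.map (· ^ ℓ)

theorem jK_ne_const (c : kRes A) : Gink.jK A N ≠ algebraMap (kRes A) (FRes A N) c := by
  intro h0
  have := Gink.transcendental_jK A N
  rw [h0] at this
  exact this (isAlgebraic_algebraMap c)

theorem jF_ne_const (c : Qb) : Gin0.jF N ≠ algebraMap Qb (FBar N) c := by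
  intro h0
  have := Gin0.transcendental_jF N
  rw [h0] at this
  exact this (isAlgebraic_algebraMap c)

theorem frV_injective (hA : A.LiesOverPrime ℓ) : Function.Injective (frV A ℓ) := by
  haveI := Gink.charP_kRes A hA
  refine Option.map_injective ?_
  intro a b hab
  exact frobenius_inj (kRes A) ℓ hab

/-- the coefficientwise Frobenius raises the value of `j̄` to the `ℓ`-th power. -/
theorem jv_frobK (hA : A.LiesOverPrime ℓ) (Q : Place (kRes A) (FRes A N)) :
    jv N A (frobK N A hA • Q) = frV A ℓ (jv N A Q) := by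
  haveI := C0.expChar_kRes hA
  haveI := C0.perfectRing_kRes hA
  have h1 := valAt_smul (x := Gink.jK A N) (C0.frobAut A N ℓ) (C0.frobAut_smul_jK N A) Q
  refine h1.trans ?_
  congr 1

variable (hℓN : ¬ ℓ ∣ N) (hA : A.LiesOverPrime ℓ) (h : ReductionInputsModL A N)
include hℓN hA

/-- the value of `j̄` at `r P` is the reduction of an integral value of `j` at `P`. -/
theorem jv_r_of_mem [HasPrincipalDivisors Qb (FBar N)] [HasPrincipalDivisors (kRes A) (FRes A N)]
    (hdegpos : ∀ Q : Place (kRes A) (FRes A N), 0 < Q.deg)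
    (a : A) {P : Place Qb (FBar N)} (hP : 0 < P.ord (Gin0.jF N - algebraMap Qb (FBar N) (a : Qb))) :
    jv N A (placeReductionModL h P) = some (IsLocalRing.residue A a) := by
  rw [valAt_eq_some_iff]
  have hred : (theDatum N A hℓN hA h).redF (Gin0.jF N) = Gink.jK A N :=
    V.gaussDatum_redF_jF N A hℓN hA
  have := RedDatum.ord_r_pos_of_ord_pos (theDatum N A hℓN hA h) hdegpos
    (V.jF_mem_gaussDatum_O N A hℓN hA)
    (by rw [hred]; exact jK_ne_const N A)
    (V.degree_polesOf_jF_eq N A hℓN hA) a hP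
  rw [hred] at this
  exact this

/-- a non-integral value of `j` at `P` reduces to a cusp. -/
theorem jv_r_of_not_mem [HasPrincipalDivisors Qb (FBar N)]
    [HasPrincipalDivisors (kRes A) (FRes A N)]
    (hdegpos : ∀ Q : Place (kRes A) (FRes A N), 0 < Q.deg)
    {a : Qb} (ha : a ∉ A) {P : Place Qb (FBar N)}
    (hP : 0 < P.ord (Gin0.jF N - algebraMap Qb (FBar N) a)) :
    jv N A (placeReductionModL h P) = none := by
  apply valAt_eq_none_of_ord_neg
  have hred : (theDatum N A hℓN hA h).redF (Gin0.jF N) = Gink.jK A N :=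
    V.gaussDatum_redF_jF N A hℓN hA
  have := ord_r_neg_of_not_mem' (theDatum N A hℓN hA h) hdegpos
    (V.jF_mem_gaussDatum_O N A hℓN hA)
    (by rw [hred]; intro h0; exact jK_ne_const N A 0 (by rw [h0, map_zero]))
    (V.degree_polesOf_jF_eq N A hℓN hA) ha hP
  rw [hred] at this
  exact this

/-- a pole of `j` reduces to a cusp. -/
theorem jv_r_of_ord_neg [HasPrincipalDivisors Qb (FBar N)]
    [HasPrincipalDivisors (kRes A) (FRes A N)]
    (hdegpos : ∀ Q : Place (kRes A) (FRes A N), 0 < Q.deg)
    {P : Place Qb (FBar N)} (hP : P.ord (Gin0.jF N) < 0) :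
    jv N A (placeReductionModL h P) = none := by
  apply valAt_eq_none_of_ord_neg
  have hred : (theDatum N A hℓN hA h).redF (Gin0.jF N) = Gink.jK A N :=
    V.gaussDatum_redF_jF N A hℓN hA
  have := RedDatum.ord_r_neg_of_ord_neg (theDatum N A hℓN hA h) hdegpos
    (by rw [hred]; intro h0; exact jK_ne_const N A 0 (by rw [h0, map_zero]))
    (V.degree_polesOf_jF_eq N A hℓN hA) hP
  rw [hred] at this
  exact this


/-! ### the Kronecker step -/

variable [NeZero ℓ]

omit hℓN hA in
theorem jBeta_sub (a : Qb) :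
    heckeBetaBar Qb N ℓ (Gin0.jF N - algebraMap Qb (FBar N) a) =
      ConjNorm.jBeta N ℓ - algebraMap Qb (FBar (N * ℓ)) a := by
  rw [map_sub, AlgHom.commutes]
  rfl

omit hℓN hA in
theorem jAlpha_sub (a : Qb) :
    heckeAlphaBar Qb N ℓ (Gin0.jF N - algebraMap Qb (FBar N) a) =
      ConjNorm.jAlpha N ℓ - algebraMap Qb (FBar (N * ℓ)) a := by
  rw [map_sub, AlgHom.commutes]
  rfl

/-- **Kronecker at a place of level `N ℓ`, after reduction.** -/
theorem jv_kronecker [HasPrincipalDivisors Qb (FBar N)] [HasPrincipalDivisors (kRes A) (FRes A N)]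
    (hdegpos : ∀ Q : Place (kRes A) (FRes A N), 0 < Q.deg) (W : Place Qb (FBar (N * ℓ))) :
    jv N A (placeReductionModL h (W.restrictAlong (heckeAlphaBar Qb N ℓ)
        (HeckeInst.heckeAlphaBarIntegral N ℓ))) =
      frV A ℓ (jv N A (placeReductionModL h (W.restrictAlong (heckeBetaBar Qb N ℓ)
        (HeckeInst.heckeBetaBarIntegral N ℓ)))) ∨
    frV A ℓ (jv N A (placeReductionModL h (W.restrictAlong (heckeAlphaBar Qb N ℓ)
        (HeckeInst.heckeAlphaBarIntegral N ℓ)))) =
      jv N A (placeReductionModL h (W.restrictAlong (heckeBetaBar Qb N ℓ)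
        (HeckeInst.heckeBetaBarIntegral N ℓ))) := by
  haveI := Gink.charP_kRes A hA
  set β := heckeBetaBar Qb N ℓ with hβdef
  set α := heckeAlphaBar Qb N ℓ with hαdef
  set hβ := HeckeInst.heckeBetaBarIntegral N ℓ
  set hα := HeckeInst.heckeAlphaBarIntegral N ℓ
  set P := W.restrictAlong β hβ with hP
  set P'' := W.restrictAlong α hα with hP''
  have hjB : β (Gin0.jF N) = ConjNorm.jBeta N ℓ := rfl
  have hjA : α (Gin0.jF N) = ConjNorm.jAlpha N ℓ := rfl
  by_cases hpole : P.ord (Gin0.jF N) < 0
  · -- `P` is a pole of `j`, hence so is `P''`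
    have h1 : W.ord (ConjNorm.jBeta N ℓ) < 0 := by
      rw [← hjB]; exact (ord_map_neg_iff β hβ W _).mpr hpole
    have h2 : W.ord (ConjNorm.jAlpha N ℓ) < 0 := (ConjNorm.ord_jBeta_neg_iff W).mp h1
    have h3 : P''.ord (Gin0.jF N) < 0 := by
      rw [← hjA] at h2; exact (ord_map_neg_iff α hα W _).mp h2
    left
    rw [jv_r_of_ord_neg N A hℓN hA h hdegpos hpole, jv_r_of_ord_neg N A hℓN hA h hdegpos h3]
    rfl
  · push Not at hpole
    have hpole'' : 0 ≤ P''.ord (Gin0.jF N) := by
      by_contra hneg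
      push Not at hneg
      have h2 : W.ord (ConjNorm.jAlpha N ℓ) < 0 := by
        rw [← hjA]; exact (ord_map_neg_iff α hα W _).mpr hneg
      have h1 : W.ord (ConjNorm.jBeta N ℓ) < 0 := (ConjNorm.ord_jBeta_neg_iff W).mpr h2
      rw [← hjB] at h1
      exact absurd ((ord_map_neg_iff β hβ W _).mp h1) (not_lt.mpr hpole)
    obtain ⟨a, ha⟩ := B3.exists_value P (HeckeInst.deg_eq_one N P) hpole
    obtain ⟨b, hb⟩ := B3.exists_value P'' (HeckeInst.deg_eq_one N P'') hpole''
    have ha' : 0 < P.ord (Gin0.jF N - algebraMap Qb (FBar N) a) :=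
      ha.resolve_left (sub_ne_zero.mpr (jF_ne_const N a))
    have hb' : 0 < P''.ord (Gin0.jF N - algebraMap Qb (FBar N) b) :=
      hb.resolve_left (sub_ne_zero.mpr (jF_ne_const N b))
    have hWa : 0 < W.ord (ConjNorm.jBeta N ℓ - algebraMap Qb (FBar (N * ℓ)) a) := by
      rw [← jBeta_sub]; exact (ord_map_pos_iff β hβ W _).mpr ha'
    have hWb : 0 < W.ord (ConjNorm.jAlpha N ℓ - algebraMap Qb (FBar (N * ℓ)) b) := by
      rw [← jAlpha_sub]; exact (ord_map_pos_iff α hα W _).mpr hb'
    obtain ⟨hiff, hres⟩ := ConjNorm.kronecker_place A W hWa hWb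
    by_cases haA : a ∈ A
    · have hbA : b ∈ A := hiff.mp haA
      have e1 := jv_r_of_mem N A hℓN hA h hdegpos ⟨a, haA⟩ ha'
      have e2 := jv_r_of_mem N A hℓN hA h hdegpos ⟨b, hbA⟩ hb'
      rw [e1, e2]
      rcases hres haA hbA with hr | hr
      · left
        show some _ = Option.map _ (some _)
        rw [Option.map_some, hr]
      · right
        show Option.map _ (some _) = some _
        rw [Option.map_some, hr]
    · have hbA : b ∉ A := fun hb0 => haA (hiff.mpr hb0)
      left
      rw [jv_r_of_not_mem N A hℓN hA h hdegpos haA ha',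
        jv_r_of_not_mem N A hℓN hA h hdegpos hbA hb']
      rfl


/-! ### the support of the defect -/

/-- the `j̄`-values on the support of the defect of a single place `P`: `c` or `c^(ℓ²)`,
`c = j̄ (r P)`. -/
theorem jv_of_mem_support_frobDefect [HasPrincipalDivisors Qb (FBar N)]
    [HasPrincipalDivisors (kRes A) (FRes A N)]
    (hdegpos : ∀ Q : Place (kRes A) (FRes A N), 0 < Q.deg)
    {P : Place Qb (FBar N)} {Q : Place (kRes A) (FRes A N)}
    (hQ : Q ∈ (frobDefect N A hℓN hA h (Finsupp.single P 1)).support) :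
    jv N A Q = jv N A (placeReductionModL h P) ∨
      jv N A Q = frV A ℓ (frV A ℓ (jv N A (placeReductionModL h P))) := by
  haveI := HeckeInst.hasPrincipalDivisors_FB (N * ℓ)
  have h3 := mem_support_esDefect_single (theDatum N A hℓN hA h) (heckeBetaBar Qb N ℓ)
    (heckeAlphaBar Qb N ℓ) (HeckeInst.heckeBetaBarIntegral N ℓ)
    (HeckeInst.heckeAlphaBarIntegral N ℓ) (frobK N A hA) ℓ (P := P) (Q := Q) hQ
  rcases h3 with rfl | rfl | ⟨W, hWP, rfl⟩
  · left; rfl
  · right
    rw [jv_frobK N A hA, jv_frobK N A hA]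
    rfl
  · rw [jv_frobK N A hA]
    have hk := jv_kronecker N A hℓN hA h hdegpos W
    rw [hWP] at hk
    rcases hk with hk | hk
    · right
      show frV A ℓ (jv N A (placeReductionModL h _)) = _
      rw [hk]
    · left
      exact hk

/-! ### the bad sets -/

omit hℓN in
theorem finite_badSet [HasPrincipalDivisors (kRes A) (FRes A N)]
    (hdeg : ∀ Q : Place (kRes A) (FRes A N), Q.deg = 1) (Q : Place (kRes A) (FRes A N)) :
    {Q' : Place (kRes A) (FRes A N) | jv N A Q' = jv N A Q ∨
      jv N A Q' = frV A ℓ (frV A ℓ (jv N A Q)) ∨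
      frV A ℓ (frV A ℓ (jv N A Q')) = jv N A Q}.Finite := by
  have hfib := fun v => finite_valAt_fibre (x := Gink.jK A N) (jK_ne_const N A) hdeg v
  have h3 : {Q' : Place (kRes A) (FRes A N) | frV A ℓ (frV A ℓ (jv N A Q')) = jv N A Q}.Finite := by
    by_cases hne : ∃ Q₀ : Place (kRes A) (FRes A N), frV A ℓ (frV A ℓ (jv N A Q₀)) = jv N A Q
    · obtain ⟨Q₀, hQ₀⟩ := hne
      refine (hfib (jv N A Q₀)).subset ?_
      intro Q' hQ'
      exact frV_injective A hA (frV_injective A hA (hQ'.trans hQ₀.symm))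
    · refine Set.Finite.subset (Set.finite_empty) ?_
      intro Q' hQ'
      exact (hne ⟨Q', hQ'⟩).elim
  exact ((hfib _).union ((hfib _).union h3)).subset (fun Q' hQ' => hQ')

/-- the bad set of a place `Q` of `FRes A N`: the places whose `j̄`-value is `c`, `c^(ℓ²)` or
`c^(1/ℓ²)`, `c = j̄ (Q)`. -/
def badSet [HasPrincipalDivisors (kRes A) (FRes A N)]
    (hdeg : ∀ Q : Place (kRes A) (FRes A N), Q.deg = 1) (Q : Place (kRes A) (FRes A N)) :
    Finset (Place (kRes A) (FRes A N)) :=
  (finite_badSet N A hA hdeg Q).toFinset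

omit hℓN in
theorem mem_badSet [HasPrincipalDivisors (kRes A) (FRes A N)]
    (hdeg : ∀ Q : Place (kRes A) (FRes A N), Q.deg = 1) {Q Q' : Place (kRes A) (FRes A N)} :
    Q' ∈ badSet N A hA hdeg Q ↔ (jv N A Q' = jv N A Q ∨
      jv N A Q' = frV A ℓ (frV A ℓ (jv N A Q)) ∨
      frV A ℓ (frV A ℓ (jv N A Q')) = jv N A Q) := by
  rw [badSet, Set.Finite.mem_toFinset]
  exact Iff.rfl


/-! ### the hypotheses of `Glue.rigidity` -/

theorem disjoint_support_frobDefect [HasPrincipalDivisors Qb (FBar N)]
    [HasPrincipalDivisors (kRes A) (FRes A N)]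
    (hdeg : ∀ Q : Place (kRes A) (FRes A N), Q.deg = 1) (P P' : Place Qb (FBar N))
    (hP' : placeReductionModL h P' ∉ badSet N A hA hdeg (placeReductionModL h P)) :
    Disjoint (frobDefect N A hℓN hA h (Finsupp.single P' 1)).support
      (frobDefect N A hℓN hA h (Finsupp.single P 1)).support := by
  have hdegpos : ∀ Q : Place (kRes A) (FRes A N), 0 < Q.deg := fun Q => by rw [hdeg Q]; exact one_pos
  rw [Finset.disjoint_left]
  intro Q hQ' hQ
  apply hP'
  rw [mem_badSet]
  have h1 := jv_of_mem_support_frobDefect N A hℓN hA h hdegpos hQ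
  have h2 := jv_of_mem_support_frobDefect N A hℓN hA h hdegpos hQ'
  rcases h1 with h1 | h1 <;> rcases h2 with h2 | h2
  · left; exact h2.symm.trans h1
  · right; right; exact h2.symm.trans h1
  · right; left; exact h2.symm.trans h1
  · left
    exact frV_injective A hA (frV_injective A hA (h2.symm.trans h1))

theorem exists_not_mem_badSet {γ : ℕ} (hF : IsCurveOfGenus Qb (FBar N) γ)
    [HasPrincipalDivisors Qb (FBar N)] [HasPrincipalDivisors (kRes A) (FRes A N)]
    (hdeg : ∀ Q : Place (kRes A) (FRes A N), Q.deg = 1) (Q : Place (kRes A) (FRes A N)) :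
    ∃ P₀ : Place Qb (FBar N), placeReductionModL h P₀ ∉ badSet N A hA hdeg Q := by
  classical
  have hdegpos : ∀ Q : Place (kRes A) (FRes A N), 0 < Q.deg := fun Q => by rw [hdeg Q]; exact one_pos
  -- the finitely many forbidden values
  have hfin : {c : kRes A | some c = jv N A Q ∨ some c = frV A ℓ (frV A ℓ (jv N A Q)) ∨
      frV A ℓ (frV A ℓ (some c)) = jv N A Q}.Finite := by
    have s1 : ∀ v : Option (kRes A), {c : kRes A | some c = v}.Finite := by
      intro v
      refine Set.Subsingleton.finite ?_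
      intro c hc c' hc'
      exact Option.some_injective _ (hc.trans hc'.symm)
    have s3 : {c : kRes A | frV A ℓ (frV A ℓ (some c)) = jv N A Q}.Finite := by
      refine Set.Subsingleton.finite ?_
      intro c hc c' hc'
      exact Option.some_injective _
        (frV_injective A hA (frV_injective A hA (hc.trans hc'.symm)))
    exact ((s1 _).union ((s1 _).union s3)).subset (fun c hc => hc)
  haveI : Infinite (kRes A) := IsAlgClosed.instInfinite (K := kRes A)
  obtain ⟨c, hc⟩ := hfin.exists_notMem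
  obtain ⟨a, rfl⟩ := IsLocalRing.residue_surjective c
  -- a zero of `j - a`
  have hnc : ∀ c' : Qb, Gin0.jF N - algebraMap Qb (FBar N) (a : Qb) ≠ algebraMap Qb (FBar N) c' := by
    intro c' h0
    refine jF_ne_const N ((a : Qb) + c') ?_
    rw [map_add, ← h0]; ring
  have hpos := B3.degree_zerosOf_pos_of_nonconst hF hnc
  have hne : zerosOf (K := Qb) (Gin0.jF N - algebraMap Qb (FBar N) (a : Qb)) ≠ 0 := by
    intro h0
    rw [h0, map_zero] at hpos
    exact lt_irrefl _ hpos
  obtain ⟨P₀, hP₀⟩ := Finsupp.support_nonempty_iff.mpr hne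
  have hP₀' : 0 < P₀.ord (Gin0.jF N - algebraMap Qb (FBar N) (a : Qb)) := by
    rw [Finsupp.mem_support_iff, zerosOf_apply] at hP₀
    by_contra hle
    push Not at hle
    exact hP₀ (max_eq_right hle)
  refine ⟨P₀, ?_⟩
  rw [mem_badSet, jv_r_of_mem N A hℓN hA h hdegpos a hP₀']
  exact hc

omit [NeZero ℓ] in
/-- **(C2.2)**: the support control data of `Glue.rigidity` for `frobDefect`
(verbatim `Glue.SupportData N A hℓN hA h`). -/
theorem supportData :
    ∃ B : Place (kRes A) (FRes A N) → Finset (Place (kRes A) (FRes A N)),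
      (∀ Q, Q ∈ B Q) ∧
      (∀ P P' : Place Qb (FBar N),
        placeReductionModL h P' ∉ B (placeReductionModL h P) →
          Disjoint (frobDefect N A hℓN hA h (Finsupp.single P' 1)).support
            (frobDefect N A hℓN hA h (Finsupp.single P 1)).support) ∧
      (∀ Q : Place (kRes A) (FRes A N), ∃ P₀ : Place Qb (FBar N),
        placeReductionModL h P₀ ∉ B Q) := by
  haveI : NeZero ℓ := ⟨(Fact.out : ℓ.Prime).ne_zero⟩
  obtain ⟨γ, hF, hFk⟩ := B3.exists_genus_level N A hℓN hA h
  haveI := hF.hasPrincipalDivisors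
  haveI := hFk.hasPrincipalDivisors
  have hdeg : ∀ Q : Place (kRes A) (FRes A N), Q.deg = 1 := hFk.deg_eq_one
  exact ⟨badSet N A hA hdeg, fun Q => (mem_badSet N A hA hdeg).mpr (Or.inl rfl),
    disjoint_support_frobDefect N A hℓN hA h hdeg,
    exists_not_mem_badSet N A hℓN hA h hF hdeg⟩

include h in
/-- **Eichler–Shimura on `Pic⁰`** (clause 3 of `Glue.Inputs.exists_frob`), from reduction inputs. -/
theorem hES (hℓ : ℓ.Prime) (w : JZero N) :
    C0.Fr A N hA (reductionModL A N (heckeOperatorBar N ⟨ℓ, hℓ⟩ w)) =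
      C0.Fr A N hA (C0.Fr A N hA (reductionModL A N w)) + ℓ • reductionModL A N w := by
  obtain ⟨γ, hF, hFk⟩ := B3.exists_genus_level N A hℓN hA h
  haveI := hF.hasPrincipalDivisors
  haveI := hFk.hasPrincipalDivisors
  have hdeg : ∀ Q : Place (kRes A) (FRes A N), Q.deg = 1 := hFk.deg_eq_one
  exact hES_of_support N A hℓ hℓN hA h (badSet N A hA hdeg)
    (fun Q => (mem_badSet N A hA hdeg).mpr (Or.inl rfl))
    (disjoint_support_frobDefect N A hℓN hA h hdeg)
    (exists_not_mem_badSet N A hℓN hA h hF hdeg) w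

end Modular

end Fermat.Agent.S37lib.ES
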